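import Fermat.Agent.Lib.ECBiquad.Card
import Fermat.Prelude.Def_FLTPrelim_GaloisRep

set_option autoImplicit false

/-!
# Torsion of elliptic curves: `#E[n] = n²`

Main results (all for an elliptic curve `W` over a field `F`, base-changed to an algebraically
closed field `K` in which `n ≠ 0`):

* `Fermat.Agent.Lib.ECBiquad.card_torsionBy` : `Nat.card E[n] = n ^ 2` (curve already over `K`).
* `card_torsionBy_baseChange` : the same for `(W⁄K).Point`.
* `finite_torsionBy_baseChange`, `nontrivial_torsionBy_baseChange`.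
* `finrank_torsionBy_baseChange` : `E[p]` is a 2-dimensional `ZMod p`-vector space.
* `card_torsionBy_rat`, `finrank_torsionBy_rat`, `nontrivial_torsionBy_rat` :
  the case `F = ℚ`, `K = AlgebraicClosure ℚ` used by the frozen statements.
-/

namespace Fermat.Agent.Lib.ECBiquad

open WeierstrassCurve WeierstrassCurve.Affine WeierstrassCurve.Affine.Point

section BaseChange

variable {F : Type*} [Field F] {K : Type*} [Field K] [Algebra F K] [IsAlgClosed K]
  [DecidableEq K] (W : WeierstrassCurve F) [W.IsElliptic]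

theorem card_torsionBy_baseChange {n : ℕ} (hn : (n : K) ≠ 0) :
    Nat.card (Submodule.torsionBy ℤ (W⁄K).Point (n : ℤ)) = n ^ 2 := by
  have : (W.map (algebraMap F K)).IsElliptic := inferInstance
  exact card_torsionBy (W.map (algebraMap F K)) hn

theorem finite_torsionBy_baseChange {n : ℕ} (hn : (n : K) ≠ 0) :
    Finite (Submodule.torsionBy ℤ (W⁄K).Point (n : ℤ)) := by
  apply Nat.finite_of_card_ne_zero
  rw [card_torsionBy_baseChange W hn]
  exact pow_ne_zero 2 (fun h => hn (by simp [h]))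

theorem nontrivial_torsionBy_baseChange {n : ℕ} (hn : (n : K) ≠ 0) (hn1 : 1 < n) :
    Nontrivial (Submodule.torsionBy ℤ (W⁄K).Point (n : ℤ)) := by
  have := finite_torsionBy_baseChange (K := K) W hn
  rw [← Finite.one_lt_card_iff_nontrivial, card_torsionBy_baseChange W hn]
  exact Nat.one_lt_pow (by norm_num) hn1

theorem finrank_torsionBy_baseChange {p : ℕ} [Fact p.Prime] (hp : (p : K) ≠ 0) :
    Module.finrank (ZMod p) (Submodule.torsionBy ℤ (W⁄K).Point (p : ℤ)) = 2 := by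
  have := finite_torsionBy_baseChange (K := K) W hp
  have h := Module.natCard_eq_pow_finrank (K := ZMod p)
    (V := Submodule.torsionBy ℤ (W⁄K).Point (p : ℤ))
  rw [card_torsionBy_baseChange W hp, Nat.card_zmod] at h
  exact (Nat.pow_right_injective (Fact.out (p := p.Prime)).two_le h).symm

end BaseChange

section Rat

variable (W : WeierstrassCurve ℚ)

theorem card_torsionBy_rat (hΔ : W.Δ ≠ 0) {n : ℕ} (hn : n ≠ 0) :
    Nat.card (Submodule.torsionBy ℤ (W⁄(AlgebraicClosure ℚ)).Point (n : ℤ)) = n ^ 2 := by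
  have : W.IsElliptic := ⟨isUnit_iff_ne_zero.mpr hΔ⟩
  exact card_torsionBy_baseChange W (by exact_mod_cast hn)

theorem finite_torsionBy_rat (hΔ : W.Δ ≠ 0) {n : ℕ} (hn : n ≠ 0) :
    Finite (Submodule.torsionBy ℤ (W⁄(AlgebraicClosure ℚ)).Point (n : ℤ)) := by
  have : W.IsElliptic := ⟨isUnit_iff_ne_zero.mpr hΔ⟩
  exact finite_torsionBy_baseChange W (by exact_mod_cast hn)

theorem nontrivial_torsionBy_rat (hΔ : W.Δ ≠ 0) {n : ℕ} (hn1 : 1 < n) :
    Nontrivial (Submodule.torsionBy ℤ (W⁄(AlgebraicClosure ℚ)).Point (n : ℤ)) := by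
  have : W.IsElliptic := ⟨isUnit_iff_ne_zero.mpr hΔ⟩
  exact nontrivial_torsionBy_baseChange W (by exact_mod_cast (show n ≠ 0 by omega)) hn1

theorem finrank_torsionBy_rat (hΔ : W.Δ ≠ 0) {p : ℕ} [Fact p.Prime] :
    Module.finrank (ZMod p) (Submodule.torsionBy ℤ (W⁄(AlgebraicClosure ℚ)).Point (p : ℤ)) = 2 := by
  have : W.IsElliptic := ⟨isUnit_iff_ne_zero.mpr hΔ⟩
  exact finrank_torsionBy_baseChange W
    (by exact_mod_cast (Fact.out (p := p.Prime)).ne_zero)

end Rat

section Int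

variable (W : WeierstrassCurve ℤ)

theorem map_intCast_Δ_ne_zero (hΔ : W.Δ ≠ 0) : (W.map (Int.castRingHom ℚ)).Δ ≠ 0 := by
  rw [WeierstrassCurve.map_Δ]
  simpa using hΔ

theorem card_torsionBy_int (hΔ : W.Δ ≠ 0) {n : ℕ} (hn : n ≠ 0) :
    Nat.card (Submodule.torsionBy ℤ
      ((W.map (Int.castRingHom ℚ))⁄(AlgebraicClosure ℚ)).Point (n : ℤ)) = n ^ 2 :=
  card_torsionBy_rat _ (map_intCast_Δ_ne_zero W hΔ) hn

theorem finite_torsionBy_int (hΔ : W.Δ ≠ 0) {n : ℕ} (hn : n ≠ 0) :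
    Finite (Submodule.torsionBy ℤ
      ((W.map (Int.castRingHom ℚ))⁄(AlgebraicClosure ℚ)).Point (n : ℤ)) :=
  finite_torsionBy_rat _ (map_intCast_Δ_ne_zero W hΔ) hn

theorem nontrivial_torsionBy_int (hΔ : W.Δ ≠ 0) {n : ℕ} (hn1 : 1 < n) :
    Nontrivial (Submodule.torsionBy ℤ
      ((W.map (Int.castRingHom ℚ))⁄(AlgebraicClosure ℚ)).Point (n : ℤ)) :=
  nontrivial_torsionBy_rat _ (map_intCast_Δ_ne_zero W hΔ) hn1

theorem finrank_torsionBy_int (hΔ : W.Δ ≠ 0) {p : ℕ} [Fact p.Prime] :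
    Module.finrank (ZMod p) (Submodule.torsionBy ℤ
      ((W.map (Int.castRingHom ℚ))⁄(AlgebraicClosure ℚ)).Point (p : ℤ)) = 2 :=
  finrank_torsionBy_rat _ (map_intCast_Δ_ne_zero W hΔ)

end Int

end Fermat.Agent.Lib.ECBiquad
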