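import Fermat.Agent.Lib.ECBiquad.Generic

set_option autoImplicit false

namespace Fermat.Agent.Lib.ECBiquad

open Polynomial WeierstrassCurve

section Wronskian

variable {K : Type*} [Field K]

theorem natDegree_cast_eq_zero_of_derivative_eq_zero {p : K[X]} (h : derivative p = 0) :
    (p.natDegree : K) = 0 := by
  by_cases hd : p.natDegree = 0
  · simp [hd]
  · have hc := coeff_derivative p (p.natDegree - 1)
    rw [h, coeff_zero] at hc
    have e : p.natDegree - 1 + 1 = p.natDegree := Nat.sub_add_cancel (Nat.pos_of_ne_zero hd)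
    have hlc : p.coeff p.natDegree ≠ 0 := by
      have : p ≠ 0 := fun h0 => hd (by simp [h0])
      exact leadingCoeff_ne_zero.mpr this
    have h2 : ((p.natDegree - 1 : ℕ) : K) + 1 = (p.natDegree : K) := by
      rw [← Nat.cast_succ, Nat.succ_eq_add_one, e]
    rw [e, h2] at hc
    exact (mul_eq_zero.mp hc.symm).resolve_left hlc

theorem wronskian_ne_zero {a b : K[X]} (hab : IsCoprime a b) (hb : b ≠ 0) {m : ℕ}
    (hm : (m : K) ≠ 0) (hdeg : max a.natDegree b.natDegree = m) :
    derivative a * b - a * derivative b ≠ 0 := by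
  intro h
  have h' : derivative a * b = a * derivative b := sub_eq_zero.mp h
  have hbd : b ∣ derivative b := by
    have : b ∣ a * derivative b := ⟨derivative a, by rw [← h']; ring⟩
    exact hab.symm.dvd_of_dvd_mul_left this
  have hb' : derivative b = 0 := by
    by_contra hne
    by_cases hd : b.natDegree = 0
    · apply hne
      rw [eq_C_of_natDegree_eq_zero hd, derivative_C]
    · have h1 := natDegree_le_of_dvd hbd hne
      have h2 := natDegree_derivative_lt hd
      omega
  have ha' : derivative a = 0 := by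
    rw [hb', mul_zero] at h'
    exact (mul_eq_zero.mp h').resolve_right hb
  have h1 := natDegree_cast_eq_zero_of_derivative_eq_zero ha'
  have h2 := natDegree_cast_eq_zero_of_derivative_eq_zero hb'
  apply hm
  rcases max_choice a.natDegree b.natDegree with h3 | h3
  · rw [← hdeg, h3]; exact h1
  · rw [← hdeg, h3]; exact h2

end Wronskian

section RootCount

variable {K : Type*} [Field K] [IsAlgClosed K]

/-- For coprime `a`, `b` with `max (deg a) (deg b) = m` prime to the characteristic, the
equation `a(x) = c b(x)` has exactly `m` solutions for all but finitely many `c`. -/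
theorem exists_finite_bad_values {a b : K[X]} (hab : IsCoprime a b) (hb : b ≠ 0) {m : ℕ}
    (hm : (m : K) ≠ 0) (hdeg : max a.natDegree b.natDegree = m) :
    ∃ S : Set K, S.Finite ∧ ∀ c ∉ S, {x₀ : K | (a - C c * b).eval x₀ = 0}.ncard = m := by
  classical
  set Wr := derivative a * b - a * derivative b with hWr
  have hWr0 : Wr ≠ 0 := wronskian_ne_zero hab hb hm hdeg
  set SB : Set K := (fun x₀ => a.eval x₀ / b.eval x₀) '' {x | Wr.IsRoot x} with hSB
  have hSBfin : SB.Finite := (Polynomial.finite_setOfPred_isRoot hWr0).image _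
  set SA : Set K := {c | a.coeff m - c * b.coeff m = 0} with hSA
  have hcoef := exists_coeff_max_ne_zero (a := a) (b := b) (fun h => hb h.2)
  rw [hdeg] at hcoef
  have hSAfin : SA.Finite := by
    apply Set.Subsingleton.finite
    intro c hc c' hc'
    simp only [hSA, Set.mem_ofPred_eq] at hc hc'
    by_cases hβ : b.coeff m = 0
    · rw [hβ, mul_zero, sub_zero] at hc
      rcases hcoef with h | h
      · exact absurd hc h
      · exact absurd hβ h
    · have : (c - c') * b.coeff m = 0 := by linear_combination hc' - hc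
      exact sub_eq_zero.mp ((mul_eq_zero.mp this).resolve_right hβ)
  refine ⟨SA ∪ SB, hSAfin.union hSBfin, ?_⟩
  intro c hc
  simp only [Set.mem_union, not_or] at hc
  obtain ⟨hcA, hcB⟩ := hc
  set g := a - C c * b with hg
  have ham : a.natDegree ≤ m := hdeg ▸ le_max_left _ _
  have hbm : b.natDegree ≤ m := hdeg ▸ le_max_right _ _
  have hgcoeff : g.coeff m ≠ 0 := by
    rw [hg, coeff_sub, coeff_C_mul]
    exact hcA
  have hg0 : g ≠ 0 := fun h => hgcoeff (by simp [h])
  have hgdeg : g.natDegree = m := by
    apply le_antisymm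
    · refine (natDegree_sub_le _ _).trans (max_le ham ?_)
      exact (natDegree_C_mul_le _ _).trans hbm
    · exact le_natDegree_of_ne_zero hgcoeff
  have hsep : g.Separable := by
    rw [separable_def]
    apply (Polynomial.isCoprime_iff_aeval_ne_zero_of_isAlgClosed K K g (derivative g)).mpr
    intro x₀
    by_contra hcon
    simp only [not_or, not_not] at hcon
    obtain ⟨e1, e2⟩ := hcon
    rw [coe_aeval_eq_eval] at e1 e2
    rw [hg, derivative_sub, derivative_C_mul] at e2
    rw [hg] at e1
    simp only [eval_sub, eval_mul, eval_C] at e1 e2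
    have hbx : b.eval x₀ ≠ 0 := by
      intro hbx
      obtain ⟨u, v, huv⟩ := hab
      have := congrArg (Polynomial.eval x₀) huv
      simp only [eval_add, eval_mul, eval_one] at this
      rw [hbx, mul_zero, sub_zero] at e1
      rw [e1, hbx] at this
      simp at this
    apply hcB
    refine ⟨x₀, ?_, ?_⟩
    · show Wr.IsRoot x₀
      rw [IsRoot, hWr]
      simp only [eval_sub, eval_mul]
      linear_combination (b.eval x₀) * e2 - (eval x₀ (derivative b)) * e1
    · show a.eval x₀ / b.eval x₀ = c
      rw [div_eq_iff hbx]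
      linear_combination e1
  have hcard := Polynomial.card_rootSet_eq_natDegree (K := K) hsep (IsAlgClosed.splits _)
  rw [hgdeg] at hcard
  have hset : {x₀ : K | g.eval x₀ = 0} = g.rootSet K := by
    ext x₀
    rw [mem_rootSet, coe_aeval_eq_eval]
    simp [hg0]
  rw [hset, ← hcard, ← Nat.card_coe_set_eq, Nat.card_eq_fintype_card]

end RootCount

section Main

variable {K : Type*} [Field K] [IsAlgClosed K] [DecidableEq K] (W : WeierstrassCurve K)

/-- Over an algebraically closed field, every `x` is the `x`-coordinate of a point. -/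
theorem exists_point_of_x [W.IsElliptic] (x : K) :
    ∃ P : W.toAffine.Point, P ≠ 0 ∧ xOf W P = x := by
  set q : K[X] := X ^ 2 + C (W.a₁ * x + W.a₃) * X - C (x ^ 3 + W.a₂ * x ^ 2 + W.a₄ * x + W.a₆)
    with hq
  have hdeg : q.degree ≠ 0 := by
    have : q.natDegree = 2 := by
      rw [hq]
      compute_degree!
    intro h0
    have := natDegree_eq_zero_iff_degree_le_zero.mpr (le_of_eq h0)
    omega
  obtain ⟨y, hy⟩ := IsAlgClosed.exists_root q hdeg
  have heq : W.toAffine.Equation x y := by
    rw [Affine.equation_iff]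
    rw [IsRoot, hq] at hy
    simp only [eval_add, eval_sub, eval_mul, eval_pow, eval_C, eval_X] at hy
    linear_combination hy
  have hns : W.toAffine.Nonsingular x y := (Affine.equation_iff_nonsingular).mp heq
  exact ⟨Affine.Point.some x y hns, Affine.Point.some_ne_zero _, rfl⟩

/-- The number of `n`-torsion points of an elliptic curve over an algebraically closed field,
for `n` prime to the characteristic, is `n²`. -/
theorem ncard_nsmul_eq_zero [W.IsElliptic] {n : ℕ} (hn : (n : K) ≠ 0) :
    {P : W.toAffine.Point | n • P = 0}.ncard = n ^ 2 := by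
  classical
  have hΔ : W.Δ ≠ 0 := W.isUnit_Δ.ne_zero
  have hn0 : n ≠ 0 := fun h => hn (by simp [h])
  have hn1 : 1 ≤ n := Nat.pos_of_ne_zero hn0
  have hn2 : ((n ^ 2 : ℕ) : K) ≠ 0 := by
    rw [Nat.cast_pow]; exact pow_ne_zero 2 hn
  set a := (mulX W n).num with ha
  set b := (mulX W n).denom with hb
  have hab : IsCoprime a b := RatFunc.isCoprime_num_denom _
  have hb0 : b ≠ 0 := RatFunc.denom_ne_zero _
  have hdeg : max a.natDegree b.natDegree = n ^ 2 := ht_mulX W hΔ hn1
  obtain ⟨S₁, hS₁, hroots⟩ := exists_finite_bad_values hab hb0 hn2 hdeg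
  have hBad := finite_bad' W hΔ hn1
  set Bad := {P : W.toAffine.Point | P ≠ 0 ∧ ¬ GoodAt W n P} with hBaddef
  set S₂ : Set K := (fun P => xOf W (n • P)) '' Bad with hS₂def
  set S₃ : Set K := (fun P => a.eval (xOf W P) / b.eval (xOf W P)) '' Bad with hS₃def
  set S₄ : Set K := {c | (dupDen W).IsRoot c} with hS₄def
  have hS₂ : S₂.Finite := hBad.image _
  have hS₃ : S₃.Finite := hBad.image _
  have hS₄ : S₄.Finite := Polynomial.finite_setOfPred_isRoot (dupDen_ne_zero W hΔ)
  obtain ⟨c, hc⟩ := (((hS₁.union hS₂).union hS₃).union hS₄).exists_notMem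
  simp only [Set.mem_union, not_or] at hc
  obtain ⟨⟨⟨hc₁, hc₂⟩, hc₃⟩, hc₄⟩ := hc
  have hcount := hroots c hc₁
  obtain ⟨Q, hQ0, hQx⟩ := exists_point_of_x W c
  -- `Q` is not a 2-torsion point
  have hQneg : Q ≠ -Q := by
    intro hQ
    apply hc₄
    show (dupDen W).IsRoot c
    rw [IsRoot, eval_dupDen]
    cases Q with
    | zero => exact absurd rfl hQ0
    | some x y h =>
      simp only [xOf_some] at hQx
      subst hQx
      apply (two_nsmul_eq_zero_iff W h).mp
      nth_rewrite 2 [hQ]
      exact add_neg_cancel _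
  -- good points in the fibre
  have hgood : ∀ P : W.toAffine.Point, P ≠ 0 → P ∉ Bad → GoodAt W n P := by
    intro P hP hPB
    by_contra hcon
    exact hPB ⟨hP, hcon⟩
  have hbeval : ∀ x₀ : K, (a - C c * b).eval x₀ = 0 → b.eval x₀ ≠ 0 := by
    intro x₀ hx₀ hbx
    simp only [eval_sub, eval_mul, eval_C] at hx₀
    rw [hbx, mul_zero, sub_zero] at hx₀
    obtain ⟨u, v, huv⟩ := hab
    have := congrArg (Polynomial.eval x₀) huv
    simp only [eval_add, eval_mul, eval_one] at this
    rw [hx₀, hbx] at this
    simp at this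
  set A := {P : W.toAffine.Point | n • P = Q} with hA
  have hA0 : ∀ P ∈ A, P ≠ 0 := by
    intro P hP h0
    rw [hA, Set.mem_ofPred_eq, h0, nsmul_zero] at hP
    exact hQ0 hP.symm
  have hAgood : ∀ P ∈ A, GoodAt W n P := by
    intro P hP
    apply hgood P (hA0 P hP)
    intro hPB
    apply hc₂
    refine ⟨P, hPB, ?_⟩
    show xOf W (n • P) = c
    rw [show n • P = Q from hP, hQx]
  have himage : (xOf W) '' A = {x₀ : K | (a - C c * b).eval x₀ = 0} := by
    ext x₀
    constructor
    · rintro ⟨P, hP, rfl⟩
      have hs := (hAgood P hP).2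
      rw [show n • P = Q from hP, hQx] at hs
      obtain ⟨hden, hval⟩ := hs.num_denom
      show (a - C c * b).eval (xOf W P) = 0
      simp only [eval_sub, eval_mul, eval_C]
      rw [hval]
      field_simp
      ring
    · intro hx₀
      have hx₀' : (a - C c * b).eval x₀ = 0 := hx₀
      have hbx := hbeval x₀ hx₀'
      have hcval : a.eval x₀ / b.eval x₀ = c := by
        simp only [eval_sub, eval_mul, eval_C] at hx₀'
        rw [div_eq_iff hbx]
        linear_combination hx₀'
      obtain ⟨P, hP0, hPx⟩ := exists_point_of_x W x₀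
      have hPB : P ∉ Bad := by
        intro hPB
        apply hc₃
        refine ⟨P, hPB, ?_⟩
        show a.eval (xOf W P) / b.eval (xOf W P) = c
        rw [hPx, hcval]
      obtain ⟨hnP, hs⟩ := hgood P hP0 hPB
      have hxn : xOf W (n • P) = xOf W Q := by
        rw [hs.num_denom.2, hPx, hcval, hQx]
      rcases eq_or_eq_neg_of_xOf_eq W hnP hQ0 hxn with h | h
      · exact ⟨P, h, hPx⟩
      · refine ⟨-P, ?_, by rw [xOf_neg, hPx]⟩
        show n • (-P) = Q
        rw [smul_neg, h, neg_neg]
  have hinj : Set.InjOn (xOf W) A := by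
    intro P hP P' hP' hx
    rcases eq_or_eq_neg_of_xOf_eq W (hA0 P hP) (hA0 P' hP') hx with h | h
    · exact h
    · exfalso
      apply hQneg
      have h1 : n • P = Q := hP
      have h2 : n • P' = Q := hP'
      rw [h, smul_neg, h2] at h1
      exact h1.symm
  have hAcard : A.ncard = n ^ 2 := by
    rw [← hinj.ncard_image, himage, hcount]
  -- `A` is a coset of the `n`-torsion
  have hAne : A.Nonempty := by
    by_contra hne
    rw [Set.not_nonempty_iff_eq_empty] at hne
    rw [hne, Set.ncard_empty] at hAcard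
    have : 0 < n ^ 2 := Nat.pos_of_ne_zero (pow_ne_zero 2 hn0)
    omega
  obtain ⟨P₀, hP₀⟩ := hAne
  have hcoset : A = (fun T => P₀ + T) '' {P : W.toAffine.Point | n • P = 0} := by
    ext P
    constructor
    · intro hP
      refine ⟨P - P₀, ?_, by simp⟩
      show n • (P - P₀) = 0
      rw [smul_sub, show n • P = Q from hP, show n • P₀ = Q from hP₀, sub_self]
    · rintro ⟨T, hT, rfl⟩
      show n • (P₀ + T) = Q
      rw [smul_add, show n • T = 0 from hT, add_zero]
      exact hP₀
  rw [← hAcard, hcoset, Set.ncard_image_of_injective _ (add_right_injective P₀)]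

/-- The `n`-torsion subgroup has `n²` elements. -/
theorem card_torsionBy [W.IsElliptic] {n : ℕ} (hn : (n : K) ≠ 0) :
    Nat.card (Submodule.torsionBy ℤ W.toAffine.Point (n : ℤ)) = n ^ 2 := by
  rw [← ncard_nsmul_eq_zero W hn, ← Nat.card_coe_set_eq]
  apply Nat.card_congr
  refine Equiv.subtypeEquivRight ?_
  intro P
  rw [Submodule.mem_torsionBy_iff, natCast_zsmul]
  rfl

end Main

end Fermat.Agent.Lib.ECBiquad
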