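import Mathlib

set_option autoImplicit false

namespace Fermat.Agent.Lib.ECBiquad

open WeierstrassCurve WeierstrassCurve.Affine

variable {K : Type*} [Field K] [DecidableEq K] (W : WeierstrassCurve K)

/-- The `x`-coordinate of an affine point (junk value `0` at the point at infinity). -/
def xOf : W.toAffine.Point → K
  | .zero => 0
  | .some x _ _ => x

@[simp] lemma xOf_some {x y : K} (h : W.toAffine.Nonsingular x y) :
    xOf W (Affine.Point.some x y h) = x := rfl

lemma xOf_neg (P : W.toAffine.Point) : xOf W (-P) = xOf W P := by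
  cases P with
  | zero => rfl
  | some x y h => rfl

/-- Numerator of `x(P+Q) + x(P-Q)`. -/
def sumNum (x₁ x₂ : K) : K :=
  2 * (x₁ + x₂) * (x₁ * x₂) + W.b₂ * (x₁ * x₂) + W.b₄ * (x₁ + x₂) + W.b₆

/-- Numerator of `x(P+Q) * x(P-Q)`. -/
def prodNum (x₁ x₂ : K) : K :=
  (x₁ * x₂) ^ 2 - W.b₄ * (x₁ * x₂) - W.b₆ * (x₁ + x₂) - W.b₈

theorem add_sub_ne_zero {P Q : W.toAffine.Point} (hP : P ≠ 0) (hQ : Q ≠ 0)
    (hx : xOf W P ≠ xOf W Q) : P + Q ≠ 0 ∧ P - Q ≠ 0 := by
  constructor
  · intro h
    have : P = -Q := eq_neg_of_add_eq_zero_left h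
    rw [this, xOf_neg] at hx
    exact hx rfl
  · intro h
    have : P = Q := sub_eq_zero.mp h
    rw [this] at hx
    exact hx rfl

theorem xOf_add_add_xOf_sub {P Q : W.toAffine.Point} (hP : P ≠ 0) (hQ : Q ≠ 0)
    (hx : xOf W P ≠ xOf W Q) :
    xOf W (P + Q) + xOf W (P - Q) = sumNum W (xOf W P) (xOf W Q) / (xOf W P - xOf W Q) ^ 2 := by
  cases P with
  | zero => exact absurd rfl hP
  | some x₁ y₁ h₁ =>
    cases Q with
    | zero => exact absurd rfl hQ
    | some x₂ y₂ h₂ =>
      simp only [xOf_some] at hx ⊢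
      have hx' : x₁ - x₂ ≠ 0 := sub_ne_zero.mpr hx
      rw [sub_eq_add_neg, Affine.Point.neg_some, Affine.Point.add_of_X_ne hx,
        Affine.Point.add_of_X_ne hx]
      simp only [xOf_some]
      rw [Affine.slope_of_X_ne hx, Affine.slope_of_X_ne hx]
      have e₁ := (Affine.equation_iff _ _).mp h₁.1
      have e₂ := (Affine.equation_iff _ _).mp h₂.1
      simp only [Affine.addX, Affine.negY, sumNum, b₂, b₄, b₆]
      field_simp
      linear_combination (2 : K) * e₁ + 2 * e₂

/-- `(2y + a₁x + a₃)² = 4x³ + b₂x² + 2b₄x + b₆` on the curve. -/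
theorem sq_sub_negY {x y : K} (h : W.toAffine.Equation x y) :
    (y - W.toAffine.negY x y) ^ 2 = sumNum W x x := by
  have e := (Affine.equation_iff _ _).mp h
  simp only [Affine.negY, sumNum, b₂, b₄, b₆]
  linear_combination (4 : K) * e

theorem two_nsmul_eq_zero_iff {x y : K} (h : W.toAffine.Nonsingular x y) :
    Affine.Point.some x y h + Affine.Point.some x y h = 0 ↔ sumNum W x x = 0 := by
  rw [← sq_sub_negY W h.1]
  constructor
  · intro h0
    by_cases hy : y = W.toAffine.negY x y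
    · rw [← hy]; simp
    · rw [Affine.Point.add_self_of_Y_ne hy] at h0
      exact absurd h0 (Affine.Point.some_ne_zero _)
  · intro h0
    have hy : y = W.toAffine.negY x y := sub_eq_zero.mp (pow_eq_zero_iff (two_ne_zero) |>.mp h0)
    exact Affine.Point.add_self_of_Y_eq hy

theorem xOf_two_nsmul {x y : K} (h : W.toAffine.Nonsingular x y) (h2 : sumNum W x x ≠ 0) :
    xOf W (Affine.Point.some x y h + Affine.Point.some x y h) = prodNum W x x / sumNum W x x := by
  have hy : y ≠ W.toAffine.negY x y := by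
    intro hy
    apply h2
    rw [← sq_sub_negY W h.1, ← hy]; simp
  have hy' : y - W.toAffine.negY x y ≠ 0 := sub_ne_zero.mpr hy
  rw [Affine.Point.add_self_of_Y_ne hy]
  simp only [xOf_some]
  rw [Affine.slope_of_Y_ne rfl hy, ← sq_sub_negY W h.1]
  have e := (Affine.equation_iff _ _).mp h.1
  have key : ∀ D : K, D ≠ 0 → D = 2 * y + W.a₁ * x + W.a₃ →
      ((3 * x ^ 2 + 2 * W.a₂ * x + W.a₄ - W.a₁ * y) / D) ^ 2 +
        W.a₁ * ((3 * x ^ 2 + 2 * W.a₂ * x + W.a₄ - W.a₁ * y) / D) - W.a₂ - x - x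
        = prodNum W x x / D ^ 2 := by
    intro D hD hDeq
    field_simp
    subst hDeq
    simp only [prodNum, b₂, b₄, b₆, b₈]
    linear_combination (-(8 * x + W.a₁ ^ 2 + 4 * W.a₂)) * e
  have := key (y - W.toAffine.negY x y) hy' (by simp only [Affine.negY]; ring)
  simpa only [Affine.addX] using this

end Fermat.Agent.Lib.ECBiquad
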