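import Fermat.Agent.Lib.ECBiquad.Triples

set_option autoImplicit false

namespace Fermat.Agent.Lib.ECBiquad

open Polynomial

variable {K : Type*} [Field K]

/-- `Spec f x₀ v`: the rational function `f` is defined at `x₀`, with value `v`. -/
def Spec (f : RatFunc K) (x₀ v : K) : Prop :=
  ∃ a b : K[X], b.eval x₀ ≠ 0 ∧
    f = algebraMap K[X] (RatFunc K) a / algebraMap K[X] (RatFunc K) b ∧
    v = a.eval x₀ / b.eval x₀

theorem Spec.congr {f : RatFunc K} {x₀ v v' : K} (h : Spec f x₀ v) (hv : v = v') :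
    Spec f x₀ v' := hv ▸ h

theorem spec_algebraMap (p : K[X]) (x₀ : K) :
    Spec (algebraMap K[X] (RatFunc K) p) x₀ (p.eval x₀) :=
  ⟨p, 1, by simp, by simp, by simp⟩

theorem spec_X (x₀ : K) : Spec (RatFunc.X : RatFunc K) x₀ x₀ := by
  have := spec_algebraMap (X : K[X]) x₀
  rwa [RatFunc.algebraMap_X, eval_X] at this

theorem spec_C (c x₀ : K) : Spec (RatFunc.C c : RatFunc K) x₀ c := by
  have := spec_algebraMap (C c : K[X]) x₀
  rwa [RatFunc.algebraMap_C, eval_C] at this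

theorem spec_one (x₀ : K) : Spec (1 : RatFunc K) x₀ 1 := by
  have := spec_C (1 : K) x₀
  rwa [map_one] at this

theorem spec_ofNat (n : ℕ) [n.AtLeastTwo] (x₀ : K) :
    Spec (OfNat.ofNat n : RatFunc K) x₀ (OfNat.ofNat n) := by
  have := spec_C (OfNat.ofNat n : K) x₀
  rwa [map_ofNat] at this

theorem Spec.add {f g : RatFunc K} {x₀ v w : K} (hf : Spec f x₀ v) (hg : Spec g x₀ w) :
    Spec (f + g) x₀ (v + w) := by
  obtain ⟨a, b, hb, rfl, rfl⟩ := hf
  obtain ⟨c, d, hd, rfl, rfl⟩ := hg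
  have hb' : algebraMap K[X] (RatFunc K) b ≠ 0 :=
    RatFunc.algebraMap_ne_zero (fun h => hb (by simp [h]))
  have hd' : algebraMap K[X] (RatFunc K) d ≠ 0 :=
    RatFunc.algebraMap_ne_zero (fun h => hd (by simp [h]))
  refine ⟨a * d + c * b, b * d, by simp [hb, hd], ?_, ?_⟩
  · simp only [map_add, map_mul]; field_simp
  · simp only [eval_add, eval_mul]; field_simp

theorem Spec.mul {f g : RatFunc K} {x₀ v w : K} (hf : Spec f x₀ v) (hg : Spec g x₀ w) :
    Spec (f * g) x₀ (v * w) := by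
  obtain ⟨a, b, hb, rfl, rfl⟩ := hf
  obtain ⟨c, d, hd, rfl, rfl⟩ := hg
  have hb' : algebraMap K[X] (RatFunc K) b ≠ 0 :=
    RatFunc.algebraMap_ne_zero (fun h => hb (by simp [h]))
  have hd' : algebraMap K[X] (RatFunc K) d ≠ 0 :=
    RatFunc.algebraMap_ne_zero (fun h => hd (by simp [h]))
  refine ⟨a * c, b * d, by simp [hb, hd], ?_, ?_⟩
  · simp only [map_mul]; field_simp
  · simp only [eval_mul]; field_simp

theorem Spec.neg {f : RatFunc K} {x₀ v : K} (hf : Spec f x₀ v) : Spec (-f) x₀ (-v) := by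
  obtain ⟨a, b, hb, rfl, rfl⟩ := hf
  refine ⟨-a, b, hb, ?_, ?_⟩
  · simp only [map_neg]; ring
  · simp only [eval_neg]; ring

theorem Spec.sub {f g : RatFunc K} {x₀ v w : K} (hf : Spec f x₀ v) (hg : Spec g x₀ w) :
    Spec (f - g) x₀ (v - w) := by
  rw [sub_eq_add_neg, sub_eq_add_neg]
  exact hf.add hg.neg

theorem Spec.pow {f : RatFunc K} {x₀ v : K} (hf : Spec f x₀ v) (n : ℕ) :
    Spec (f ^ n) x₀ (v ^ n) := by
  induction n with
  | zero => simpa using spec_one x₀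
  | succ n ih => rw [pow_succ, pow_succ]; exact ih.mul hf

theorem Spec.div {f g : RatFunc K} {x₀ v w : K} (hf : Spec f x₀ v) (hg : Spec g x₀ w)
    (hw : w ≠ 0) : Spec (f / g) x₀ (v / w) := by
  obtain ⟨a, b, hb, rfl, rfl⟩ := hf
  obtain ⟨c, d, hd, rfl, rfl⟩ := hg
  have hc : c.eval x₀ ≠ 0 := by
    intro h; apply hw; simp [h]
  have hb' : algebraMap K[X] (RatFunc K) b ≠ 0 :=
    RatFunc.algebraMap_ne_zero (fun h => hb (by simp [h]))
  have hd' : algebraMap K[X] (RatFunc K) d ≠ 0 :=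
    RatFunc.algebraMap_ne_zero (fun h => hd (by simp [h]))
  have hc' : algebraMap K[X] (RatFunc K) c ≠ 0 :=
    RatFunc.algebraMap_ne_zero (fun h => hc (by simp [h]))
  refine ⟨a * d, b * c, by simp [hb, hc], ?_, ?_⟩
  · simp only [map_mul]; field_simp
  · simp only [eval_mul]; field_simp

/-- A specialisation is computed by the reduced fraction. -/
theorem Spec.num_denom {f : RatFunc K} {x₀ v : K} (hf : Spec f x₀ v) :
    f.denom.eval x₀ ≠ 0 ∧ v = f.num.eval x₀ / f.denom.eval x₀ := by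
  obtain ⟨a, b, hb, hfe, rfl⟩ := hf
  have hb0 : b ≠ 0 := fun h => hb (by simp [h])
  have hrel : f.num * b = a * f.denom := (RatFunc.num_mul_eq_mul_denom_iff hb0).mpr hfe
  obtain ⟨e, he⟩ : f.denom ∣ b := (RatFunc.denom_dvd hb0).mpr ⟨a, hfe⟩
  have hden : f.denom.eval x₀ ≠ 0 := by
    intro h
    apply hb
    rw [he, eval_mul, h, zero_mul]
  refine ⟨hden, ?_⟩
  rw [div_eq_div_iff hb hden]
  have := congrArg (Polynomial.eval x₀) hrel
  simp only [eval_mul] at this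
  linear_combination -this

theorem Spec.unique {f : RatFunc K} {x₀ v w : K} (hf : Spec f x₀ v) (hg : Spec f x₀ w) :
    v = w := by
  rw [hf.num_denom.2, hg.num_denom.2]

/-- A nonzero rational function specialises to `0` at only finitely many places. -/
theorem finite_spec_zero {f : RatFunc K} (hf : f ≠ 0) : {x₀ : K | Spec f x₀ 0}.Finite := by
  refine (Polynomial.finite_setOfPred_isRoot (RatFunc.num_ne_zero hf)).subset ?_
  intro x₀ hx
  obtain ⟨hden, h0⟩ := Spec.num_denom hx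
  have : f.num.eval x₀ = 0 := by
    rcases div_eq_zero_iff.mp h0.symm with h | h
    · exact h
    · exact absurd h hden
  exact this

section Forms

variable (b₂ b₄ b₆ b₈ : K)

theorem Spec.F0 {s t u : RatFunc K} {x₀ vs vt vu : K} (hs : Spec s x₀ vs) (ht : Spec t x₀ vt)
    (hu : Spec u x₀ vu) :
    Spec (F0 (RatFunc.C b₄) (RatFunc.C b₆) (RatFunc.C b₈) s t u) x₀ (F0 b₄ b₆ b₈ vs vt vu) := by
  unfold ECBiquad.F0
  exact (((hs.pow 2).sub (((spec_C b₄ x₀).mul hs).mul hu)).sub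
    (((spec_C b₆ x₀).mul ht).mul hu)).sub ((spec_C b₈ x₀).mul (hu.pow 2))

theorem Spec.F1 {s t u : RatFunc K} {x₀ vs vt vu : K} (hs : Spec s x₀ vs) (ht : Spec t x₀ vt)
    (hu : Spec u x₀ vu) :
    Spec (F1 (RatFunc.C b₂) (RatFunc.C b₄) (RatFunc.C b₆) s t u) x₀ (F1 b₂ b₄ b₆ vs vt vu) := by
  unfold ECBiquad.F1
  exact (((((spec_ofNat 2 x₀).mul ht).mul hs).add (((spec_C b₂ x₀).mul hs).mul hu)).add
    (((spec_C b₄ x₀).mul ht).mul hu)).add ((spec_C b₆ x₀).mul (hu.pow 2))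

theorem Spec.F2 {s t u : RatFunc K} {x₀ vs vt vu : K} (hs : Spec s x₀ vs) (ht : Spec t x₀ vt)
    (hu : Spec u x₀ vu) : Spec (F2 s t u) x₀ (F2 vs vt vu) := by
  unfold ECBiquad.F2
  exact (ht.pow 2).sub (((spec_ofNat 4 x₀).mul hs).mul hu)

end Forms

end Fermat.Agent.Lib.ECBiquad
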