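import Fermat.Agent.Lib.ECBiquad.MulSeq
import Fermat.Agent.Lib.ECBiquad.Spec
import Fermat.Agent.Lib.ECBiquad.PointFormulas

set_option autoImplicit false

namespace Fermat.Agent.Lib.ECBiquad

open Polynomial WeierstrassCurve

variable {K : Type*} [Field K] [DecidableEq K] (W : WeierstrassCurve K)

theorem eq_or_eq_neg_of_xOf_eq {P Q : W.toAffine.Point} (hP : P ≠ 0) (hQ : Q ≠ 0)
    (h : xOf W P = xOf W Q) : P = Q ∨ P = -Q := by
  cases P with
  | zero => exact absurd rfl hP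
  | some x₁ y₁ h₁ =>
    cases Q with
    | zero => exact absurd rfl hQ
    | some x₂ y₂ h₂ =>
      simp only [xOf_some] at h
      exact Affine.Point.X_eq_iff.mp h

/-- The fibres of the `x`-coordinate are finite. -/
theorem finite_xOf_fiber (x₀ : K) : {P : W.toAffine.Point | P ≠ 0 ∧ xOf W P = x₀}.Finite := by
  by_cases h : ∃ P₀ : W.toAffine.Point, P₀ ≠ 0 ∧ xOf W P₀ = x₀
  · obtain ⟨P₀, hP₀, hx₀⟩ := h
    refine (Set.toFinite {P₀, -P₀}).subset ?_
    rintro P ⟨hP, hx⟩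
    rcases eq_or_eq_neg_of_xOf_eq W hP hP₀ (hx.trans hx₀.symm) with h | h
    · left; exact h
    · right; exact h
  · convert Set.finite_empty
    ext P
    simp only [Set.mem_ofPred_eq, Set.mem_empty_iff_false, iff_false]
    exact fun hP => h ⟨P, hP⟩

/-- Only finitely many points have `x`-coordinate a root of a given nonzero polynomial. -/
theorem finite_xOf_root {g : K[X]} (hg : g ≠ 0) :
    {P : W.toAffine.Point | P ≠ 0 ∧ g.eval (xOf W P) = 0}.Finite := by
  have hroots : {x : K | g.IsRoot x}.Finite := Polynomial.finite_setOfPred_isRoot hg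
  refine (hroots.biUnion (fun x₀ _ => finite_xOf_fiber W x₀)).subset ?_
  rintro P ⟨hP, hx⟩
  simp only [Set.mem_iUnion, Set.mem_ofPred_eq]
  exact ⟨xOf W P, hx, hP, rfl⟩

/-- Only finitely many points have `x`-coordinate in a given finite set. -/
theorem finite_xOf_mem {S : Set K} (hS : S.Finite) :
    {P : W.toAffine.Point | P ≠ 0 ∧ xOf W P ∈ S}.Finite := by
  refine (hS.biUnion (fun x₀ _ => finite_xOf_fiber W x₀)).subset ?_
  rintro P ⟨hP, hx⟩
  simp only [Set.mem_iUnion, Set.mem_ofPred_eq]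
  exact ⟨xOf W P, hx, hP, rfl⟩

theorem eval_dupDen (x : K) : (dupDen W).eval x = sumNum W x x := by
  simp only [dupDen, G1, F1, sumNum, eval_add, eval_mul, eval_pow, eval_C, eval_X, eval_one,
    eval_ofNat]
  ring

theorem eval_dupNum (x : K) : (dupNum W).eval x = prodNum W x x := by
  simp only [dupNum, G0, F0, prodNum, eval_add, eval_sub, eval_mul, eval_pow, eval_C, eval_X,
    eval_one]
  ring

/-- `GoodAt n P`: `n • P ≠ 0` and `x(n • P)` is the value of `R_n` at `x(P)`. -/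
def GoodAt (n : ℕ) (P : W.toAffine.Point) : Prop :=
  n • P ≠ 0 ∧ Spec (mulX W n) (xOf W P) (xOf W (n • P))

theorem goodAt_one {P : W.toAffine.Point} (hP : P ≠ 0) : GoodAt W 1 P := by
  refine ⟨by simpa using hP, ?_⟩
  rw [one_nsmul, mulX_one]
  exact spec_X _

theorem finite_bad_two (hΔ : W.Δ ≠ 0) :
    {P : W.toAffine.Point | P ≠ 0 ∧ ¬ GoodAt W 2 P}.Finite := by
  refine (finite_xOf_root W (dupDen_ne_zero W hΔ)).subset ?_
  rintro P ⟨hP, hbad⟩
  refine ⟨hP, ?_⟩
  by_contra hne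
  apply hbad
  cases P with
  | zero => exact absurd rfl hP
  | some x y h =>
    simp only [xOf_some] at hne
    rw [eval_dupDen] at hne
    refine ⟨?_, ?_⟩
    · rw [two_nsmul]
      exact fun h0 => hne ((two_nsmul_eq_zero_iff W h).mp h0)
    · rw [two_nsmul, xOf_two_nsmul W h hne, mulX_two_eq]
      refine ⟨dupNum W, dupDen W, ?_, rfl, ?_⟩
      · rw [xOf_some, eval_dupDen]; exact hne
      · rw [xOf_some, eval_dupDen, eval_dupNum]

theorem mulX_sub_X_ne_zero (hΔ : W.Δ ≠ 0) (n : ℕ) : mulX W (n + 2) - RatFunc.X ≠ 0 := by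
  intro h0
  have h2 := (mulX_inv W hΔ n).2.1
  rw [sub_eq_zero.mp h0, ht_X] at h2
  have h4 : 2 ≤ n + 2 := by omega
  have h5 := Nat.pow_le_pow_left h4 2
  omega

theorem goodAt_step {n : ℕ} {P : W.toAffine.Point} (hP : P ≠ 0)
    (h1 : GoodAt W (n + 1) P) (h2 : GoodAt W (n + 2) P)
    (hne : ¬ Spec (mulX W (n + 2) - RatFunc.X) (xOf W P) 0) : GoodAt W (n + 3) P := by
  obtain ⟨hQ', hs'⟩ := h1
  obtain ⟨hQ, hs⟩ := h2
  set Q := (n + 2) • P with hQdef
  set Q' := (n + 1) • P with hQ'def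
  have hx : xOf W Q ≠ xOf W P := by
    intro hx
    apply hne
    have := hs.sub (spec_X (xOf W P))
    rwa [hx, sub_self] at this
  have e3 : (n + 3) • P = Q + P := by
    rw [hQdef, ← succ_nsmul]
  have e1 : Q - P = Q' := by
    rw [hQdef, hQ'def, succ_nsmul (n := n + 1)]; abel
  have hsum := xOf_add_add_xOf_sub W hQ hP hx
  rw [e1] at hsum
  have hD : F2 (xOf W P * xOf W Q) (xOf W P + xOf W Q) 1 ≠ 0 := by
    rw [F2_eq_sq]
    exact pow_ne_zero 2 (sub_ne_zero.mpr (Ne.symm hx))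
  refine ⟨?_, ?_⟩
  · rw [e3]; exact (add_sub_ne_zero W hQ hP hx).1
  · rw [e3, mulX_add_three]
    have hX := spec_X (xOf W P)
    have hnum := Spec.F1 W.b₂ W.b₄ W.b₆ (hX.mul hs) (hX.add hs) (spec_one (xOf W P))
    have hden := Spec.F2 (hX.mul hs) (hX.add hs) (spec_one (xOf W P))
    refine ((hnum.div hden hD).sub hs').congr ?_
    have hxne : xOf W Q - xOf W P ≠ 0 := sub_ne_zero.mpr hx
    have hxne' : xOf W P - xOf W Q ≠ 0 := sub_ne_zero.mpr (Ne.symm hx)
    have e4 : xOf W (Q + P) =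
        sumNum W (xOf W Q) (xOf W P) / (xOf W Q - xOf W P) ^ 2 - xOf W Q' :=
      eq_sub_of_add_eq hsum
    rw [e4, F2_eq_sq]
    congr 1
    simp only [F1, sumNum]
    field_simp
    ring

/-- For every `n ≥ 1`, all but finitely many points are good at `n`. -/
theorem finite_bad (hΔ : W.Δ ≠ 0) (n : ℕ) :
    {P : W.toAffine.Point | P ≠ 0 ∧ ¬ GoodAt W (n + 1) P}.Finite ∧
      {P : W.toAffine.Point | P ≠ 0 ∧ ¬ GoodAt W (n + 2) P}.Finite := by
  induction n with
  | zero =>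
    refine ⟨?_, finite_bad_two W hΔ⟩
    convert Set.finite_empty
    ext P
    simp only [Set.mem_ofPred_eq, Set.mem_empty_iff_false, iff_false, not_and, not_not]
    exact fun hP => goodAt_one W hP
  | succ n ih =>
    obtain ⟨f1, f2⟩ := ih
    refine ⟨f2, ?_⟩
    have f3 : {P : W.toAffine.Point | P ≠ 0 ∧
        xOf W P ∈ {x₀ : K | Spec (mulX W (n + 2) - RatFunc.X) x₀ 0}}.Finite :=
      finite_xOf_mem W (finite_spec_zero (mulX_sub_X_ne_zero W hΔ n))
    refine ((f1.union f2).union f3).subset ?_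
    rintro P ⟨hP, hbad⟩
    by_contra hcon
    simp only [Set.mem_union, Set.mem_ofPred_eq, not_or, not_and, not_not] at hcon
    obtain ⟨⟨g1, g2⟩, g3⟩ := hcon
    exact hbad (goodAt_step W hP (g1 hP) (g2 hP) (g3 hP))

theorem finite_bad' (hΔ : W.Δ ≠ 0) {n : ℕ} (hn : 1 ≤ n) :
    {P : W.toAffine.Point | P ≠ 0 ∧ ¬ GoodAt W n P}.Finite := by
  obtain ⟨m, rfl⟩ : ∃ m, n = m + 1 := ⟨n - 1, by omega⟩
  exact (finite_bad W hΔ m).1

theorem ht_mulX (hΔ : W.Δ ≠ 0) {n : ℕ} (hn : 1 ≤ n) : ht (mulX W n) = n ^ 2 := by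
  obtain ⟨m, rfl⟩ : ∃ m, n = m + 1 := ⟨n - 1, by omega⟩
  exact (mulX_inv W hΔ m).1

end Fermat.Agent.Lib.ECBiquad
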