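import Fermat.Agent.Lib.ECBiquad.Triples

set_option autoImplicit false

namespace Fermat.Agent.Lib.ECBiquad

open Polynomial

variable {K : Type*} [Field K]

/-- The height (degree as a map `ℙ¹ → ℙ¹`) of a rational function. -/
noncomputable def ht (f : RatFunc K) : ℕ := max f.num.natDegree f.denom.natDegree

theorem cop3_of_isCoprime {a b : K[X]} (h : IsCoprime a b) : Cop3 a b 0 := by
  obtain ⟨α, β, e⟩ := h
  exact ⟨α, β, 0, by rw [← e]; ring⟩

theorem mdeg3_zero_right (a b : K[X]) : mdeg3 a b 0 = max a.natDegree b.natDegree := by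
  simp [mdeg3]

/-- The height can be computed from any coprime representation. -/
theorem ht_eq_of_rep {f : RatFunc K} {a b : K[X]} (hb : b ≠ 0) (hab : IsCoprime a b)
    (hf : f = algebraMap K[X] (RatFunc K) a / algebraMap K[X] (RatFunc K) b) :
    ht f = max a.natDegree b.natDegree := by
  have hrel : f.num * b = a * f.denom := (RatFunc.num_mul_eq_mul_denom_iff hb).mpr hf
  have := mdeg3_eq_of_proportional (cop3_of_isCoprime (RatFunc.isCoprime_num_denom f))
    (cop3_of_isCoprime hab) hb (mu := f.denom)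
    (by linear_combination hrel) (by ring) (by ring)
  rw [mdeg3_zero_right, mdeg3_zero_right] at this
  exact this

theorem ht_X : ht (RatFunc.X : RatFunc K) = 1 := by
  simp [ht]

theorem algebraMap_num_eq (f : RatFunc K) :
    algebraMap K[X] (RatFunc K) f.num = f * algebraMap K[X] (RatFunc K) f.denom := by
  have h0 : algebraMap K[X] (RatFunc K) f.denom ≠ 0 := RatFunc.algebraMap_ne_zero f.denom_ne_zero
  have := RatFunc.num_div_denom f
  rw [div_eq_iff h0] at this
  exact this

variable (W : WeierstrassCurve K)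

/-- The key height relation: if `f'`, `g'` are the "sum and difference" of `f`, `g`
(in the sense of the addition-subtraction map on `x`-coordinates), then
`ht f' + ht g' = 2 (ht f + ht g)`. -/
theorem ht_add_ht_of_rel (hΔ : W.Δ ≠ 0) {f g f' g' : RatFunc K}
    (h₀ : f' * g' * F2 (f * g) (f + g) 1 =
      F0 (RatFunc.C W.b₄) (RatFunc.C W.b₆) (RatFunc.C W.b₈) (f * g) (f + g) 1)
    (h₁ : (f' + g') * F2 (f * g) (f + g) 1 =
      F1 (RatFunc.C W.b₂) (RatFunc.C W.b₄) (RatFunc.C W.b₆) (f * g) (f + g) 1) :
    ht f' + ht g' = 2 * (ht f + ht g) := by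
  set ι := algebraMap K[X] (RatFunc K) with hι
  have hinj : Function.Injective ι := RatFunc.algebraMap_injective K
  -- representations
  have e₁ : ι f.num = f * ι f.denom := algebraMap_num_eq f
  have e₂ : ι g.num = g * ι g.denom := algebraMap_num_eq g
  have e₃ : ι f'.num = f' * ι f'.denom := algebraMap_num_eq f'
  have e₄ : ι g'.num = g' * ι g'.denom := algebraMap_num_eq g'
  set s := f.num * g.num with hs
  set t := f.num * g.denom + f.denom * g.num with ht'
  set u := f.denom * g.denom with hu
  have hcopT : Cop3 s t u := cop3_sym (RatFunc.isCoprime_num_denom f)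
    (RatFunc.isCoprime_num_denom g)
  have hdegT : mdeg3 s t u = ht f + ht g :=
    mdeg3_sym (fun h => f.denom_ne_zero h.2) (fun h => g.denom_ne_zero h.2)
  have hcopT' : Cop3 (f'.num * g'.num) (f'.num * g'.denom + f'.denom * g'.num)
      (f'.denom * g'.denom) :=
    cop3_sym (RatFunc.isCoprime_num_denom f') (RatFunc.isCoprime_num_denom g')
  have hdegT' : mdeg3 (f'.num * g'.num) (f'.num * g'.denom + f'.denom * g'.num)
      (f'.denom * g'.denom) = ht f' + ht g' :=
    mdeg3_sym (fun h => f'.denom_ne_zero h.2) (fun h => g'.denom_ne_zero h.2)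
  have hcopG := cop3_G W hΔ hcopT
  have hdegG := mdeg3_G W hΔ s t u
  have hlam : f'.denom * g'.denom ≠ 0 := mul_ne_zero f'.denom_ne_zero g'.denom_ne_zero
  have hCb : ∀ c : K, ι (C c) = RatFunc.C c := fun c => RatFunc.algebraMap_C c
  have key := mdeg3_eq_of_proportional hcopG hcopT' hlam (mu := G2 s t u) ?_ ?_ ?_
  · rw [← hdegT', ← key, hdegG, hdegT]
  · apply hinj
    simp only [G0, G2, F0, F2, hs, ht', hu, map_mul, map_add, map_sub, map_pow, map_ofNat, hCb,
      e₁, e₂, e₃, e₄]
    simp only [F0, F2] at h₀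
    linear_combination (-(ι f.denom * ι g.denom) ^ 2 * ι f'.denom * ι g'.denom) * h₀
  · apply hinj
    simp only [G1, G2, F1, F2, hs, ht', hu, map_mul, map_add, map_sub, map_pow, map_ofNat, hCb,
      e₁, e₂, e₃, e₄]
    simp only [F1, F2] at h₁
    linear_combination (-(ι f.denom * ι g.denom) ^ 2 * ι f'.denom * ι g'.denom) * h₁
  · ring

end Fermat.Agent.Lib.ECBiquad
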