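import Fermat.Agent.Lib.ECBiquad.Height

set_option autoImplicit false

namespace Fermat.Agent.Lib.ECBiquad

open Polynomial

variable {K : Type*} [Field K] (W : WeierstrassCurve K)

/-- The rational function `R_n` with `x(n • P) = R_n(x(P))`, defined by the
addition-subtraction recurrence (junk value at `n = 0`). -/
noncomputable def mulX : ℕ → RatFunc K
  | 0 => 0
  | 1 => RatFunc.X
  | 2 => F0 (RatFunc.C W.b₄) (RatFunc.C W.b₆) (RatFunc.C W.b₈) (RatFunc.X * RatFunc.X)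
      (RatFunc.X + RatFunc.X) 1 /
      F1 (RatFunc.C W.b₂) (RatFunc.C W.b₄) (RatFunc.C W.b₆) (RatFunc.X * RatFunc.X)
      (RatFunc.X + RatFunc.X) 1
  | (n + 3) => F1 (RatFunc.C W.b₂) (RatFunc.C W.b₄) (RatFunc.C W.b₆) (RatFunc.X * mulX (n + 2))
      (RatFunc.X + mulX (n + 2)) 1 / F2 (RatFunc.X * mulX (n + 2)) (RatFunc.X + mulX (n + 2)) 1
      - mulX (n + 1)

theorem mulX_one : mulX W 1 = RatFunc.X := rfl

theorem mulX_two : mulX W 2 =
    F0 (RatFunc.C W.b₄) (RatFunc.C W.b₆) (RatFunc.C W.b₈) (RatFunc.X * RatFunc.X)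
      (RatFunc.X + RatFunc.X) 1 /
      F1 (RatFunc.C W.b₂) (RatFunc.C W.b₄) (RatFunc.C W.b₆) (RatFunc.X * RatFunc.X)
      (RatFunc.X + RatFunc.X) 1 := rfl

theorem mulX_add_three (n : ℕ) : mulX W (n + 3) =
    F1 (RatFunc.C W.b₂) (RatFunc.C W.b₄) (RatFunc.C W.b₆) (RatFunc.X * mulX W (n + 2))
      (RatFunc.X + mulX W (n + 2)) 1 /
      F2 (RatFunc.X * mulX W (n + 2)) (RatFunc.X + mulX W (n + 2)) 1 - mulX W (n + 1) := rfl

/-- The symmetric biquadratic addition relation. -/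
def biquad {A : Type*} [CommRing A] (b₂ b₄ b₆ b₈ x₁ x₂ x₃ : A) : A :=
  F2 (x₁ * x₂) (x₁ + x₂) 1 * x₃ ^ 2 - F1 b₂ b₄ b₆ (x₁ * x₂) (x₁ + x₂) 1 * x₃ +
    F0 b₄ b₆ b₈ (x₁ * x₂) (x₁ + x₂) 1

theorem biquad_symm {A : Type*} [CommRing A] (b₂ b₄ b₆ b₈ x₁ x₂ x₃ : A) :
    biquad b₂ b₄ b₆ b₈ x₁ x₂ x₃ = biquad b₂ b₄ b₆ b₈ x₁ x₃ x₂ := by
  simp only [biquad, F0, F1, F2]
  ring

theorem F2_eq_sq {A : Type*} [CommRing A] (x₁ x₂ : A) :
    F2 (x₁ * x₂) (x₁ + x₂) 1 = (x₁ - x₂) ^ 2 := by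
  simp only [F2]; ring

/-- The numerator and denominator polynomials of the duplication formula. -/
noncomputable def dupNum : K[X] := G0 W (X * X) (X + X) 1
noncomputable def dupDen : K[X] := G1 W (X * X) (X + X) 1

theorem dup_coprime_aux (hΔ : W.Δ ≠ 0) :
    IsCoprime (dupNum W) (dupDen W) ∧ max (dupNum W).natDegree (dupDen W).natDegree = 4 := by
  have hcop : Cop3 (X * X : K[X]) (X + X) 1 := ⟨0, 0, 1, by ring⟩
  have h2 : G2 (X * X : K[X]) (X + X) 1 = 0 := by simp only [G2, F2]; ring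
  have hG := cop3_G W hΔ hcop
  have hdeg := mdeg3_G W hΔ (X * X : K[X]) (X + X) 1
  rw [h2] at hG hdeg
  rw [mdeg3_zero_right] at hdeg
  have hm : mdeg3 (X * X : K[X]) (X + X) 1 = 2 := by
    unfold mdeg3
    have h1 : (X * X : K[X]).natDegree = 2 := by
      rw [← sq, natDegree_X_pow]
    have h3 : (X + X : K[X]).natDegree ≤ 1 := by
      refine (natDegree_add_le _ _).trans ?_
      simp
    rw [h1, natDegree_one]
    omega
  rw [hm] at hdeg
  obtain ⟨α, β, γ, e⟩ := hG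
  exact ⟨⟨α, β, by rw [← e]; simp [dupNum, dupDen]⟩, hdeg⟩

theorem dupDen_ne_zero (hΔ : W.Δ ≠ 0) : dupDen W ≠ 0 := by
  intro h0
  obtain ⟨hcop, hdeg⟩ := dup_coprime_aux W hΔ
  rw [h0] at hcop hdeg
  have hu : IsUnit (dupNum W) := by
    obtain ⟨α, β, e⟩ := hcop
    have e' : dupNum W * α = 1 := by rw [mul_comm]; simpa using e
    exact IsUnit.of_mul_eq_one _ e'
  have : (dupNum W).natDegree = 0 := natDegree_eq_zero_of_isUnit hu
  simp [this] at hdeg

theorem algebraMap_dupNum : algebraMap K[X] (RatFunc K) (dupNum W) =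
    F0 (RatFunc.C W.b₄) (RatFunc.C W.b₆) (RatFunc.C W.b₈) (RatFunc.X * RatFunc.X)
      (RatFunc.X + RatFunc.X) 1 := by
  simp only [dupNum, G0, F0, map_sub, map_mul, map_add, map_pow, map_one, RatFunc.algebraMap_X,
    RatFunc.algebraMap_C]

theorem algebraMap_dupDen : algebraMap K[X] (RatFunc K) (dupDen W) =
    F1 (RatFunc.C W.b₂) (RatFunc.C W.b₄) (RatFunc.C W.b₆) (RatFunc.X * RatFunc.X)
      (RatFunc.X + RatFunc.X) 1 := by
  simp only [dupDen, G1, F1, map_mul, map_add, map_pow, map_one, map_ofNat, RatFunc.algebraMap_X,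
    RatFunc.algebraMap_C]

theorem mulX_two_eq : mulX W 2 =
    algebraMap K[X] (RatFunc K) (dupNum W) / algebraMap K[X] (RatFunc K) (dupDen W) := by
  rw [mulX_two, algebraMap_dupNum, algebraMap_dupDen]

theorem ht_mulX_two (hΔ : W.Δ ≠ 0) : ht (mulX W 2) = 4 := by
  obtain ⟨hcop, hdeg⟩ := dup_coprime_aux W hΔ
  rw [ht_eq_of_rep (dupDen_ne_zero W hΔ) hcop (mulX_two_eq W), hdeg]

/-- The invariant of the recurrence. -/
theorem mulX_inv (hΔ : W.Δ ≠ 0) (n : ℕ) :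
    ht (mulX W (n + 1)) = (n + 1) ^ 2 ∧ ht (mulX W (n + 2)) = (n + 2) ^ 2 ∧
      biquad (RatFunc.C W.b₂) (RatFunc.C W.b₄) (RatFunc.C W.b₆) (RatFunc.C W.b₈) RatFunc.X
        (mulX W (n + 1)) (mulX W (n + 2)) = 0 := by
  induction n with
  | zero =>
    refine ⟨by simp [mulX_one, ht_X], by simpa using ht_mulX_two W hΔ, ?_⟩
    have hden : algebraMap K[X] (RatFunc K) (dupDen W) ≠ 0 :=
      RatFunc.algebraMap_ne_zero (dupDen_ne_zero W hΔ)
    rw [algebraMap_dupDen] at hden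
    have key : ∀ S₂ P₂ : RatFunc K, S₂ ≠ 0 →
        (0 : RatFunc K) * (P₂ / S₂) ^ 2 - S₂ * (P₂ / S₂) + P₂ = 0 := by
      intro S₂ P₂ h
      field_simp
      ring
    have e2 : F2 (RatFunc.X * RatFunc.X) (RatFunc.X + RatFunc.X) 1 = (0 : RatFunc K) := by
      rw [F2_eq_sq]; simp
    simp only [zero_add, mulX_one]
    rw [mulX_two]
    simp only [biquad]
    rw [e2]
    exact key _ _ hden
  | succ n ih =>
    obtain ⟨h1, h2, h3⟩ := ih
    set g' := mulX W (n + 1) with hg'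
    set g := mulX W (n + 2) with hg
    have hgX : RatFunc.X - g ≠ 0 := by
      intro h0
      have : g = RatFunc.X := (sub_eq_zero.mp h0).symm
      rw [this, ht_X] at h2
      have h4 : 2 ≤ n + 2 := by omega
      have h5 := Nat.pow_le_pow_left h4 2
      omega
    have hD : F2 (RatFunc.X * g) (RatFunc.X + g) 1 ≠ 0 := by
      rw [F2_eq_sq]; exact pow_ne_zero 2 hgX
    have hrec : mulX W (n + 1 + 2) =
        F1 (RatFunc.C W.b₂) (RatFunc.C W.b₄) (RatFunc.C W.b₆) (RatFunc.X * g)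
          (RatFunc.X + g) 1 / F2 (RatFunc.X * g) (RatFunc.X + g) 1 - g' := mulX_add_three W n
    have hsym := biquad_symm (RatFunc.C W.b₂) (RatFunc.C W.b₄) (RatFunc.C W.b₆) (RatFunc.C W.b₈)
      RatFunc.X g' g
    rw [h3] at hsym
    simp only [biquad] at hsym
    set S := F1 (RatFunc.C W.b₂) (RatFunc.C W.b₄) (RatFunc.C W.b₆) (RatFunc.X * g)
          (RatFunc.X + g) 1 with hS
    set D := F2 (RatFunc.X * g) (RatFunc.X + g) 1 with hDdef
    set P := F0 (RatFunc.C W.b₄) (RatFunc.C W.b₆) (RatFunc.C W.b₈) (RatFunc.X * g)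
          (RatFunc.X + g) 1 with hP
    have hrel₁ : (mulX W (n + 1 + 2) + g') * D = S := by
      rw [hrec]; field_simp; ring
    have hrel₀ : mulX W (n + 1 + 2) * g' * D = P := by
      rw [hrec]; field_simp
      linear_combination hsym
    have hht := ht_add_ht_of_rel W hΔ hrel₀ hrel₁
    refine ⟨h2, ?_, ?_⟩
    · rw [ht_X, h1, h2] at hht
      have : (n + 1 + 2) ^ 2 + (n + 1) ^ 2 = 2 * (1 + (n + 2) ^ 2) := by ring
      omega
    · simp only [biquad]
      rw [← hS, ← hDdef, ← hP, hrec]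
      field_simp
      linear_combination (-D) * hsym

end Fermat.Agent.Lib.ECBiquad
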