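import Mathlib

set_option autoImplicit false

namespace Fermat.Agent.Lib.ECBiquad

open Polynomial

variable {K : Type*} [Field K]

/-- Maximal degree of a triple of polynomials. -/
def mdeg3 (s t u : K[X]) : ℕ := max s.natDegree (max t.natDegree u.natDegree)

/-- A triple of polynomials generating the unit ideal. -/
def Cop3 (s t u : K[X]) : Prop := ∃ α β γ : K[X], α * s + β * t + γ * u = 1

theorem Cop3.not_prime_dvd {s t u : K[X]} (h : Cop3 s t u) {p : K[X]} (hp : Prime p)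
    (hs : p ∣ s) (ht : p ∣ t) (hu : p ∣ u) : False := by
  obtain ⟨α, β, γ, h1⟩ := h
  have : p ∣ 1 := by
    rw [← h1]
    exact dvd_add (dvd_add (Dvd.dvd.mul_left hs α) (Dvd.dvd.mul_left ht β)) (Dvd.dvd.mul_left hu γ)
  exact hp.not_isUnit (isUnit_of_dvd_one this)

theorem cop3_of_prime {s t u : K[X]}
    (h : ∀ p : K[X], Prime p → p ∣ s → p ∣ t → p ∣ u → False) : Cop3 s t u := by
  by_contra hc
  have hI : Ideal.span ({s, t, u} : Set K[X]) ≠ ⊤ := by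
    intro htop
    apply hc
    have h1 : (1 : K[X]) ∈ Ideal.span ({s, t, u} : Set K[X]) := by rw [htop]; trivial
    obtain ⟨α, β, γ, e⟩ := Submodule.mem_span_triple.mp h1
    exact ⟨α, β, γ, by simpa using e⟩
  obtain ⟨M, hM, hle⟩ := Ideal.exists_le_maximal _ hI
  have hprinc : Submodule.IsPrincipal M := IsPrincipalIdealRing.principal M
  set p := Submodule.IsPrincipal.generator M with hp
  have hMp : Ideal.span {p} = M := Submodule.IsPrincipal.span_singleton_generator M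
  have hmem : ∀ x ∈ ({s, t, u} : Set K[X]), p ∣ x := by
    intro x hx
    have : x ∈ M := hle (Ideal.subset_span hx)
    rw [← hMp] at this
    exact Ideal.mem_span_singleton.mp this
  by_cases hp0 : p = 0
  · have hs : s = 0 := by simpa [hp0] using hmem s (by simp)
    have ht : t = 0 := by simpa [hp0] using hmem t (by simp)
    have hu : u = 0 := by simpa [hp0] using hmem u (by simp)
    exact h X prime_X (by simp [hs]) (by simp [ht]) (by simp [hu])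
  · have hpr : Prime p := (Ideal.span_singleton_prime hp0).mp (hMp ▸ hM.isPrime)
    exact h p hpr (hmem s (by simp)) (hmem t (by simp)) (hmem u (by simp))

/-- The symmetric-function triple of two coprime pairs is coprime. -/
theorem cop3_sym {a b c d : K[X]} (h₁ : IsCoprime a b) (h₂ : IsCoprime c d) :
    Cop3 (a * c) (a * d + b * c) (b * d) := by
  apply cop3_of_prime
  intro p hp h1 h2 h3
  have nab : ¬ (p ∣ a ∧ p ∣ b) := fun h => hp.not_isUnit (h₁.isUnit_of_dvd' h.1 h.2)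
  have ncd : ¬ (p ∣ c ∧ p ∣ d) := fun h => hp.not_isUnit (h₂.isUnit_of_dvd' h.1 h.2)
  rcases hp.dvd_mul.mp h1 with ha | hc
  · have hb : ¬ p ∣ b := fun hb => nab ⟨ha, hb⟩
    have hd : p ∣ d := (hp.dvd_mul.mp h3).resolve_left hb
    have hbc : p ∣ b * c := by
      have := dvd_sub h2 (Dvd.dvd.mul_right ha d)
      simpa using this
    have hc : p ∣ c := (hp.dvd_mul.mp hbc).resolve_left hb
    exact ncd ⟨hc, hd⟩
  · have hd : ¬ p ∣ d := fun hd => ncd ⟨hc, hd⟩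
    have hb : p ∣ b := (hp.dvd_mul.mp h3).resolve_right hd
    have had : p ∣ a * d := by
      have := dvd_sub h2 (Dvd.dvd.mul_left hc b)
      simpa using this
    have ha : p ∣ a := (hp.dvd_mul.mp had).resolve_right hd
    exact nab ⟨ha, hb⟩

theorem exists_coeff_max_ne_zero {a b : K[X]} (h : ¬ (a = 0 ∧ b = 0)) :
    a.coeff (max a.natDegree b.natDegree) ≠ 0 ∨ b.coeff (max a.natDegree b.natDegree) ≠ 0 := by
  rcases le_total a.natDegree b.natDegree with h' | h'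
  · rw [max_eq_right h']
    by_cases hb : b = 0
    · left
      have ha : a ≠ 0 := fun ha => h ⟨ha, hb⟩
      have : a.natDegree = b.natDegree := le_antisymm h' (by simp [hb])
      rw [← this]
      exact leadingCoeff_ne_zero.mpr ha
    · right
      exact leadingCoeff_ne_zero.mpr hb
  · rw [max_eq_left h']
    by_cases ha : a = 0
    · right
      have hb : b ≠ 0 := fun hb => h ⟨ha, hb⟩
      have : b.natDegree = a.natDegree := le_antisymm h' (by simp [ha])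
      rw [← this]
      exact leadingCoeff_ne_zero.mpr hb
    · left
      exact leadingCoeff_ne_zero.mpr ha

/-- The maximal degree of the symmetric-function triple is the sum of the maximal degrees. -/
theorem mdeg3_sym {a b c d : K[X]} (h₁ : ¬ (a = 0 ∧ b = 0)) (h₂ : ¬ (c = 0 ∧ d = 0)) :
    mdeg3 (a * c) (a * d + b * c) (b * d) =
      max a.natDegree b.natDegree + max c.natDegree d.natDegree := by
  have hab := exists_coeff_max_ne_zero h₁
  have hcd := exists_coeff_max_ne_zero h₂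
  set m := max a.natDegree b.natDegree with hm
  set n := max c.natDegree d.natDegree with hn
  have ham : a.natDegree ≤ m := le_max_left _ _
  have hbm : b.natDegree ≤ m := le_max_right _ _
  have hcn : c.natDegree ≤ n := le_max_left _ _
  have hdn : d.natDegree ≤ n := le_max_right _ _
  apply le_antisymm
  · unfold mdeg3
    refine max_le ?_ (max_le ?_ ?_)
    · exact natDegree_mul_le.trans (add_le_add ham hcn)
    · refine (natDegree_add_le _ _).trans (max_le ?_ ?_)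
      · exact natDegree_mul_le.trans (add_le_add ham hdn)
      · exact natDegree_mul_le.trans (add_le_add hbm hcn)
    · exact natDegree_mul_le.trans (add_le_add hbm hdn)
  · have e1 : (a * c).coeff (m + n) = a.coeff m * c.coeff n :=
      coeff_mul_add_eq_of_natDegree_le ham hcn
    have e2 : (a * d + b * c).coeff (m + n) = a.coeff m * d.coeff n + b.coeff m * c.coeff n := by
      rw [coeff_add, coeff_mul_add_eq_of_natDegree_le ham hdn,
        coeff_mul_add_eq_of_natDegree_le hbm hcn]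
    have e3 : (b * d).coeff (m + n) = b.coeff m * d.coeff n :=
      coeff_mul_add_eq_of_natDegree_le hbm hdn
    have key : (a * c).coeff (m + n) ≠ 0 ∨ (a * d + b * c).coeff (m + n) ≠ 0 ∨
        (b * d).coeff (m + n) ≠ 0 := by
      rw [e1, e2, e3]
      by_contra hcon
      simp only [not_or, not_not] at hcon
      obtain ⟨k1, k2, k3⟩ := hcon
      rcases hab with ha | hb
      · have hc0 : c.coeff n = 0 := (mul_eq_zero.mp k1).resolve_left ha
        rw [hc0, mul_zero, add_zero] at k2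
        have hd0 : d.coeff n = 0 := (mul_eq_zero.mp k2).resolve_left ha
        rcases hcd with h | h
        · exact h hc0
        · exact h hd0
      · have hd0 : d.coeff n = 0 := (mul_eq_zero.mp k3).resolve_left hb
        rw [hd0, mul_zero, zero_add] at k2
        have hc0 : c.coeff n = 0 := (mul_eq_zero.mp k2).resolve_left hb
        rcases hcd with h | h
        · exact h hc0
        · exact h hd0
    unfold mdeg3
    rcases key with h | h | h
    · exact (le_natDegree_of_ne_zero h).trans (le_max_left _ _)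
    · exact (le_natDegree_of_ne_zero h).trans ((le_max_left _ _).trans (le_max_right _ _))
    · exact (le_natDegree_of_ne_zero h).trans ((le_max_right _ _).trans (le_max_right _ _))

section Forms
variable {A : Type*} [CommRing A]

/-- Numerator form of `x(P+Q) * x(P-Q)`. -/
def F0 (b₄ b₆ b₈ s t u : A) : A := s ^ 2 - b₄ * s * u - b₆ * t * u - b₈ * u ^ 2
/-- Numerator form of `x(P+Q) + x(P-Q)`. -/
def F1 (b₂ b₄ b₆ s t u : A) : A := 2 * t * s + b₂ * s * u + b₄ * t * u + b₆ * u ^ 2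
/-- Denominator form. -/
def F2 (s t u : A) : A := t ^ 2 - 4 * s * u

theorem cond_identity₀ (a₁ a₂ a₃ a₄ a₆ s t u b₂ b₄ b₆ b₈ Δ : A)
    (h₂ : b₂ = a₁ ^ 2 + 4 * a₂) (h₄ : b₄ = 2 * a₄ + a₁ * a₃) (h₆ : b₆ = a₃ ^ 2 + 4 * a₆)
    (h₈ : b₈ = a₁ ^ 2 * a₆ + 4 * a₂ * a₆ - a₁ * a₃ * a₄ + a₂ * a₃ ^ 2 - a₄ ^ 2)
    (hΔ : Δ = -b₂ ^ 2 * b₈ - 8 * b₄ ^ 3 - 27 * b₆ ^ 2 + 9 * b₂ * b₄ * b₆) :
    ((-b₂ ^ 2 * b₈ + 9 * b₂ * b₄ * b₆ - 8 * b₄ ^ 3 - 27 * b₆ ^ 2) * s ^ 2 +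
        (2 * b₂ * b₄ * b₈ - 2 * b₄ ^ 2 * b₆ - 10 * b₆ * b₈) * (s * t) +
        (-b₂ * b₆ * b₈ + b₄ * b₆ ^ 2) * (s * u) +
        (3 * b₄ ^ 2 * b₈ - 3 * b₄ * b₆ ^ 2) * t ^ 2 +
        (3 * b₄ * b₆ * b₈ - 3 * b₆ ^ 3) * (t * u)) * F0 b₄ b₆ b₈ s t u +
      ((-b₂ * b₄ * b₈ + b₄ ^ 2 * b₆ + 5 * b₆ * b₈) * s ^ 2 +
        (2 * b₂ * b₆ * b₈ - 2 * b₄ * b₆ ^ 2 - 10 * b₈ ^ 2) * (s * t) +
        (-b₂ * b₈ ^ 2 + b₄ * b₆ * b₈) * (s * u) +
        (3 * b₄ * b₆ * b₈ - 3 * b₆ ^ 3) * t ^ 2 +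
        (3 * b₄ * b₈ ^ 2 - 3 * b₆ ^ 2 * b₈) * (t * u)) * F1 b₂ b₄ b₆ s t u +
      ((b₂ * b₆ * b₈ - 8 * b₄ ^ 2 * b₈ + 7 * b₄ * b₆ ^ 2) * s ^ 2 +
        (-6 * b₄ * b₆ * b₈ + 6 * b₆ ^ 3) * (s * t) +
        (-8 * b₄ * b₈ ^ 2 + 8 * b₆ ^ 2 * b₈) * (s * u)) * F2 s t u = Δ * s ^ 4 := by
  subst h₂ h₄ h₆ h₈ hΔ
  simp only [F0, F1, F2]
  ring

theorem cond_identity₁ (a₁ a₂ a₃ a₄ a₆ s t u b₂ b₄ b₆ b₈ Δ : A)
    (h₂ : b₂ = a₁ ^ 2 + 4 * a₂) (h₄ : b₄ = 2 * a₄ + a₁ * a₃) (h₆ : b₆ = a₃ ^ 2 + 4 * a₆)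
    (h₈ : b₈ = a₁ ^ 2 * a₆ + 4 * a₂ * a₆ - a₁ * a₃ * a₄ + a₂ * a₃ ^ 2 - a₄ ^ 2)
    (hΔ : Δ = -b₂ ^ 2 * b₈ - 8 * b₄ ^ 3 - 27 * b₆ ^ 2 + 9 * b₂ * b₄ * b₆) :
    (96 * b₆ * (s * t) + (12 * b₂ * b₆ - 64 * b₈) * t ^ 2 + 16 * b₄ * b₆ * (t * u)) *
        F0 b₄ b₆ b₈ s t u +
      (-48 * b₆ * s ^ 2 + 32 * b₈ * (s * t) + (-4 * b₂ * b₈ + 16 * b₄ * b₆) * t ^ 2 +
        16 * b₄ * b₈ * (t * u)) * F1 b₂ b₄ b₆ s t u +
      (-12 * b₂ * b₆ * s ^ 2 + (8 * b₂ * b₈ - 32 * b₄ * b₆) * (s * t) - 12 * b₆ ^ 2 * (s * u) +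
        (-b₂ ^ 2 * b₈ + 9 * b₂ * b₄ * b₆ - 8 * b₄ ^ 3 - 27 * b₆ ^ 2) * t ^ 2 +
        (4 * b₂ * b₄ * b₈ - 4 * b₂ * b₆ ^ 2) * (t * u)) * F2 s t u = Δ * t ^ 4 := by
  subst h₂ h₄ h₆ h₈ hΔ
  simp only [F0, F1, F2]
  ring

theorem cond_identity₂ (a₁ a₂ a₃ a₄ a₆ s t u b₂ b₄ b₆ b₈ Δ : A)
    (h₂ : b₂ = a₁ ^ 2 + 4 * a₂) (h₄ : b₄ = 2 * a₄ + a₁ * a₃) (h₆ : b₆ = a₃ ^ 2 + 4 * a₆)
    (h₈ : b₈ = a₁ ^ 2 * a₆ + 4 * a₂ * a₆ - a₁ * a₃ * a₄ + a₂ * a₃ ^ 2 - a₄ ^ 2)
    (hΔ : Δ = -b₂ ^ 2 * b₈ - 8 * b₄ ^ 3 - 27 * b₆ ^ 2 + 9 * b₂ * b₄ * b₆) :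
    (-12 * t ^ 2 - 4 * b₂ * (t * u) + (b₂ ^ 2 - 32 * b₄) * u ^ 2) * F0 b₄ b₆ b₈ s t u +
      (6 * (s * t) - b₂ * (s * u) - 5 * b₄ * (t * u) + (b₂ * b₄ - 27 * b₆) * u ^ 2) *
        F1 b₂ b₄ b₆ s t u +
      (-8 * b₄ * (s * u) - 12 * b₆ * (t * u) + (b₄ ^ 2 - 28 * b₈) * u ^ 2) * F2 s t u =
      Δ * u ^ 4 := by
  subst h₂ h₄ h₆ h₈ hΔ
  simp only [F0, F1, F2]
  ring

end Forms

section FormsPoly

/-- A quadratic form with constant coefficients in three polynomials. -/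
noncomputable def qf (c : Fin 6 → K) (s t u : K[X]) : K[X] :=
  C (c 0) * (s * s) + C (c 1) * (s * t) + C (c 2) * (s * u) + C (c 3) * (t * t) +
    C (c 4) * (t * u) + C (c 5) * (u * u)

theorem natDegree_C_mul_mul_le (c : K) {x y : K[X]} {d : ℕ} (hx : x.natDegree ≤ d)
    (hy : y.natDegree ≤ d) : (C c * (x * y)).natDegree ≤ 2 * d := by
  refine (natDegree_C_mul_le _ _).trans ?_
  refine natDegree_mul_le.trans ?_
  omega

theorem natDegree_qf_le (c : Fin 6 → K) {s t u : K[X]} {d : ℕ} (hs : s.natDegree ≤ d)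
    (ht : t.natDegree ≤ d) (hu : u.natDegree ≤ d) : (qf c s t u).natDegree ≤ 2 * d := by
  unfold qf
  refine natDegree_add_le_of_degree_le (natDegree_add_le_of_degree_le
    (natDegree_add_le_of_degree_le (natDegree_add_le_of_degree_le
    (natDegree_add_le_of_degree_le ?_ ?_) ?_) ?_) ?_) ?_
  · exact natDegree_C_mul_mul_le _ hs hs
  · exact natDegree_C_mul_mul_le _ hs ht
  · exact natDegree_C_mul_mul_le _ hs hu
  · exact natDegree_C_mul_mul_le _ ht ht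
  · exact natDegree_C_mul_mul_le _ ht hu
  · exact natDegree_C_mul_mul_le _ hu hu

variable (W : WeierstrassCurve K)

/-- The three forms evaluated on polynomial triples. -/
noncomputable def G0 (s t u : K[X]) : K[X] := F0 (C W.b₄) (C W.b₆) (C W.b₈) s t u
noncomputable def G1 (s t u : K[X]) : K[X] := F1 (C W.b₂) (C W.b₄) (C W.b₆) s t u
noncomputable def G2 (s t u : K[X]) : K[X] := F2 s t u

theorem exists_qf_cond₀ (s t u : K[X]) : ∃ c₀ c₁ c₂ : Fin 6 → K,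
    qf c₀ s t u * G0 W s t u + qf c₁ s t u * G1 W s t u + qf c₂ s t u * G2 s t u
      = C W.Δ * s ^ 4 := by
  refine ⟨![-W.b₂ ^ 2 * W.b₈ + 9 * W.b₂ * W.b₄ * W.b₆ - 8 * W.b₄ ^ 3 - 27 * W.b₆ ^ 2,
      2 * W.b₂ * W.b₄ * W.b₈ - 2 * W.b₄ ^ 2 * W.b₆ - 10 * W.b₆ * W.b₈,
      -W.b₂ * W.b₆ * W.b₈ + W.b₄ * W.b₆ ^ 2,
      3 * W.b₄ ^ 2 * W.b₈ - 3 * W.b₄ * W.b₆ ^ 2,
      3 * W.b₄ * W.b₆ * W.b₈ - 3 * W.b₆ ^ 3, 0],
    ![-W.b₂ * W.b₄ * W.b₈ + W.b₄ ^ 2 * W.b₆ + 5 * W.b₆ * W.b₈,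
      2 * W.b₂ * W.b₆ * W.b₈ - 2 * W.b₄ * W.b₆ ^ 2 - 10 * W.b₈ ^ 2,
      -W.b₂ * W.b₈ ^ 2 + W.b₄ * W.b₆ * W.b₈,
      3 * W.b₄ * W.b₆ * W.b₈ - 3 * W.b₆ ^ 3,
      3 * W.b₄ * W.b₈ ^ 2 - 3 * W.b₆ ^ 2 * W.b₈, 0],
    ![W.b₂ * W.b₆ * W.b₈ - 8 * W.b₄ ^ 2 * W.b₈ + 7 * W.b₄ * W.b₆ ^ 2,
      -6 * W.b₄ * W.b₆ * W.b₈ + 6 * W.b₆ ^ 3,
      -8 * W.b₄ * W.b₈ ^ 2 + 8 * W.b₆ ^ 2 * W.b₈, 0, 0, 0], ?_⟩
  have key := cond_identity₀ (C W.a₁) (C W.a₂) (C W.a₃) (C W.a₄) (C W.a₆) s t u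
    (C W.b₂) (C W.b₄) (C W.b₆) (C W.b₈) (C W.Δ)
    (by simp only [WeierstrassCurve.b₂, map_add, map_mul, map_pow, map_ofNat])
    (by simp only [WeierstrassCurve.b₄, map_add, map_mul, map_ofNat])
    (by simp only [WeierstrassCurve.b₆, map_add, map_mul, map_pow, map_ofNat])
    (by simp only [WeierstrassCurve.b₈, map_add, map_sub, map_mul, map_pow, map_ofNat])
    (by simp only [WeierstrassCurve.Δ, map_add, map_sub, map_mul, map_neg, map_pow, map_ofNat])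
  rw [← key]
  simp only [qf, G0, G1, G2, Matrix.cons_val_zero, Matrix.cons_val_one, Matrix.cons_val,
    map_add, map_sub, map_mul, map_neg, map_pow, map_ofNat, map_zero]
  ring

theorem exists_qf_cond₁ (s t u : K[X]) : ∃ c₀ c₁ c₂ : Fin 6 → K,
    qf c₀ s t u * G0 W s t u + qf c₁ s t u * G1 W s t u + qf c₂ s t u * G2 s t u
      = C W.Δ * t ^ 4 := by
  refine ⟨![0, 96 * W.b₆, 0, 12 * W.b₂ * W.b₆ - 64 * W.b₈, 16 * W.b₄ * W.b₆, 0],
    ![-48 * W.b₆, 32 * W.b₈, 0, -4 * W.b₂ * W.b₈ + 16 * W.b₄ * W.b₆, 16 * W.b₄ * W.b₈, 0],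
    ![-12 * W.b₂ * W.b₆, 8 * W.b₂ * W.b₈ - 32 * W.b₄ * W.b₆, -12 * W.b₆ ^ 2,
      -W.b₂ ^ 2 * W.b₈ + 9 * W.b₂ * W.b₄ * W.b₆ - 8 * W.b₄ ^ 3 - 27 * W.b₆ ^ 2,
      4 * W.b₂ * W.b₄ * W.b₈ - 4 * W.b₂ * W.b₆ ^ 2, 0], ?_⟩
  have key := cond_identity₁ (C W.a₁) (C W.a₂) (C W.a₃) (C W.a₄) (C W.a₆) s t u
    (C W.b₂) (C W.b₄) (C W.b₆) (C W.b₈) (C W.Δ)
    (by simp only [WeierstrassCurve.b₂, map_add, map_mul, map_pow, map_ofNat])
    (by simp only [WeierstrassCurve.b₄, map_add, map_mul, map_ofNat])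
    (by simp only [WeierstrassCurve.b₆, map_add, map_mul, map_pow, map_ofNat])
    (by simp only [WeierstrassCurve.b₈, map_add, map_sub, map_mul, map_pow, map_ofNat])
    (by simp only [WeierstrassCurve.Δ, map_add, map_sub, map_mul, map_neg, map_pow, map_ofNat])
  rw [← key]
  simp only [qf, G0, G1, G2, Matrix.cons_val_zero, Matrix.cons_val_one, Matrix.cons_val,
    map_add, map_sub, map_mul, map_neg, map_pow, map_ofNat, map_zero]
  ring

theorem exists_qf_cond₂ (s t u : K[X]) : ∃ c₀ c₁ c₂ : Fin 6 → K,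
    qf c₀ s t u * G0 W s t u + qf c₁ s t u * G1 W s t u + qf c₂ s t u * G2 s t u
      = C W.Δ * u ^ 4 := by
  refine ⟨![0, 0, 0, -12, -4 * W.b₂, W.b₂ ^ 2 - 32 * W.b₄],
    ![0, 6, -W.b₂, 0, -5 * W.b₄, W.b₂ * W.b₄ - 27 * W.b₆],
    ![0, 0, -8 * W.b₄, 0, -12 * W.b₆, W.b₄ ^ 2 - 28 * W.b₈], ?_⟩
  have key := cond_identity₂ (C W.a₁) (C W.a₂) (C W.a₃) (C W.a₄) (C W.a₆) s t u
    (C W.b₂) (C W.b₄) (C W.b₆) (C W.b₈) (C W.Δ)
    (by simp only [WeierstrassCurve.b₂, map_add, map_mul, map_pow, map_ofNat])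
    (by simp only [WeierstrassCurve.b₄, map_add, map_mul, map_ofNat])
    (by simp only [WeierstrassCurve.b₆, map_add, map_mul, map_pow, map_ofNat])
    (by simp only [WeierstrassCurve.b₈, map_add, map_sub, map_mul, map_pow, map_ofNat])
    (by simp only [WeierstrassCurve.Δ, map_add, map_sub, map_mul, map_neg, map_pow, map_ofNat])
  rw [← key]
  simp only [qf, G0, G1, G2, Matrix.cons_val_zero, Matrix.cons_val_one, Matrix.cons_val,
    map_add, map_sub, map_mul, map_neg, map_pow, map_ofNat, map_zero]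
  ring

theorem natDegree_G0_le {s t u : K[X]} {d : ℕ} (hs : s.natDegree ≤ d)
    (ht : t.natDegree ≤ d) (hu : u.natDegree ≤ d) : (G0 W s t u).natDegree ≤ 2 * d := by
  have : G0 W s t u = qf ![1, 0, -W.b₄, 0, -W.b₆, -W.b₈] s t u := by
    simp only [qf, G0, F0, Matrix.cons_val_zero, Matrix.cons_val_one, Matrix.cons_val,
      map_neg, map_one, map_zero]
    ring
  rw [this]
  exact natDegree_qf_le _ hs ht hu

theorem natDegree_G1_le {s t u : K[X]} {d : ℕ} (hs : s.natDegree ≤ d)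
    (ht : t.natDegree ≤ d) (hu : u.natDegree ≤ d) : (G1 W s t u).natDegree ≤ 2 * d := by
  have : G1 W s t u = qf ![0, 2, W.b₂, 0, W.b₄, W.b₆] s t u := by
    simp only [qf, G1, F1, Matrix.cons_val_zero, Matrix.cons_val_one, Matrix.cons_val,
      map_ofNat, map_zero]
    ring
  rw [this]
  exact natDegree_qf_le _ hs ht hu

theorem natDegree_G2_le {s t u : K[X]} {d : ℕ} (hs : s.natDegree ≤ d)
    (ht : t.natDegree ≤ d) (hu : u.natDegree ≤ d) :
    (G2 s t u).natDegree ≤ 2 * d := by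
  have : G2 s t u = qf ![0, 0, -4, 1, 0, 0] s t u := by
    simp only [qf, G2, F2, Matrix.cons_val_zero, Matrix.cons_val_one, Matrix.cons_val,
      map_neg, map_ofNat, map_one, map_zero]
    ring
  rw [this]
  exact natDegree_qf_le _ hs ht hu

/-- The forms map coprime triples to coprime triples (when `Δ ≠ 0`). -/
theorem cop3_G (hΔ : W.Δ ≠ 0) {s t u : K[X]} (h : Cop3 s t u) :
    Cop3 (G0 W s t u) (G1 W s t u) (G2 s t u) := by
  apply cop3_of_prime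
  intro p hp h0 h1 h2
  have hCΔ : IsUnit (C W.Δ : K[X]) := isUnit_C.mpr (isUnit_iff_ne_zero.mpr hΔ)
  have aux : ∀ x : K[X], (∃ c₀ c₁ c₂ : Fin 6 → K,
      qf c₀ s t u * G0 W s t u + qf c₁ s t u * G1 W s t u + qf c₂ s t u * G2 s t u
        = C W.Δ * x ^ 4) → p ∣ x := by
    rintro x ⟨c₀, c₁, c₂, e⟩
    have hdvd : p ∣ C W.Δ * x ^ 4 := by
      rw [← e]
      exact dvd_add (dvd_add (Dvd.dvd.mul_left h0 _) (Dvd.dvd.mul_left h1 _))
        (Dvd.dvd.mul_left h2 _)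
    rcases hp.dvd_mul.mp hdvd with hd | hd
    · exact absurd (isUnit_of_dvd_unit hd hCΔ) hp.not_isUnit
    · exact hp.dvd_of_dvd_pow hd
  exact h.not_prime_dvd hp (aux s (exists_qf_cond₀ W s t u)) (aux t (exists_qf_cond₁ W s t u))
    (aux u (exists_qf_cond₂ W s t u))

/-- The forms exactly double the maximal degree of a coprime triple. -/
theorem mdeg3_G (hΔ : W.Δ ≠ 0) (s t u : K[X]) :
    mdeg3 (G0 W s t u) (G1 W s t u) (G2 s t u) = 2 * mdeg3 s t u := by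
  set d := mdeg3 s t u with hd
  have hs : s.natDegree ≤ d := le_max_left _ _
  have ht : t.natDegree ≤ d := (le_max_left _ _).trans (le_max_right _ _)
  have hu : u.natDegree ≤ d := (le_max_right _ _).trans (le_max_right _ _)
  set M := mdeg3 (G0 W s t u) (G1 W s t u) (G2 s t u) with hM
  have h0 : (G0 W s t u).natDegree ≤ M := le_max_left _ _
  have h1 : (G1 W s t u).natDegree ≤ M := (le_max_left _ _).trans (le_max_right _ _)
  have h2 : (G2 s t u).natDegree ≤ M := (le_max_right _ _).trans (le_max_right _ _)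
  apply le_antisymm
  · exact max_le (natDegree_G0_le W hs ht hu) (max_le (natDegree_G1_le W hs ht hu)
      (natDegree_G2_le hs ht hu))
  · -- some entry `x` has degree `d`
    have aux : ∀ x : K[X], x.natDegree = d → (∃ c₀ c₁ c₂ : Fin 6 → K,
        qf c₀ s t u * G0 W s t u + qf c₁ s t u * G1 W s t u + qf c₂ s t u * G2 s t u
          = C W.Δ * x ^ 4) → 2 * d ≤ M := by
      rintro x hx ⟨c₀, c₁, c₂, e⟩
      have hdeg : (C W.Δ * x ^ 4).natDegree = 4 * d := by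
        rw [natDegree_C_mul hΔ, natDegree_pow, hx]
      have hle : (C W.Δ * x ^ 4).natDegree ≤ 2 * d + M := by
        rw [← e]
        refine natDegree_add_le_of_degree_le (natDegree_add_le_of_degree_le ?_ ?_) ?_
        · exact natDegree_mul_le.trans (add_le_add (natDegree_qf_le _ hs ht hu) h0)
        · exact natDegree_mul_le.trans (add_le_add (natDegree_qf_le _ hs ht hu) h1)
        · exact natDegree_mul_le.trans (add_le_add (natDegree_qf_le _ hs ht hu) h2)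
      omega
    have hcases : s.natDegree = d ∨ t.natDegree = d ∨ u.natDegree = d := by
      rw [hd]; unfold mdeg3
      rcases max_choice s.natDegree (max t.natDegree u.natDegree) with h' | h'
      · left; exact h'.symm
      · rcases max_choice t.natDegree u.natDegree with h'' | h''
        · right; left; rw [h', h'']
        · right; right; rw [h', h'']
    rcases hcases with h' | h' | h'
    · exact aux s h' (exists_qf_cond₀ W s t u)
    · exact aux t h' (exists_qf_cond₁ W s t u)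
    · exact aux u h' (exists_qf_cond₂ W s t u)

/-- Proportional coprime triples have the same maximal degree. -/
theorem mdeg3_eq_of_proportional {s t u s' t' u' lam mu : K[X]} (h : Cop3 s t u)
    (h' : Cop3 s' t' u') (hlam : lam ≠ 0) (hs : lam * s = mu * s')
    (ht : lam * t = mu * t') (hu : lam * u = mu * u') : mdeg3 s t u = mdeg3 s' t' u' := by
  obtain ⟨α, β, γ, e⟩ := h
  obtain ⟨α', β', γ', e'⟩ := h'
  have d1 : mu ∣ lam := ⟨α * s' + β * t' + γ * u', by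
    linear_combination (-lam) * e + α * hs + β * ht + γ * hu⟩
  have d2 : lam ∣ mu := ⟨α' * s + β' * t + γ' * u, by
    linear_combination (-mu) * e' - α' * hs - β' * ht - γ' * hu⟩
  obtain ⟨v, hv⟩ := associated_of_dvd_dvd d2 d1
  obtain ⟨r, hr, hrv⟩ := Polynomial.isUnit_iff.mp v.isUnit
  have hr0 : r ≠ 0 := hr.ne_zero
  have key : ∀ x x' : K[X], lam * x = mu * x' → x.natDegree = x'.natDegree := by
    intro x x' hx
    have : x = C r * x' := by
      apply mul_left_cancel₀ hlam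
      rw [hx, ← hv, ← hrv]; ring
    rw [this, natDegree_C_mul hr0]
  unfold mdeg3
  rw [key s s' hs, key t t' ht, key u u' hu]

end FormsPoly

end Fermat.Agent.Lib.ECBiquad
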